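import Fermat.Statements.S43
import Fermat.Statements.S44
import Fermat.Prelude.Def_EllipticCurve_FrobeniusTrace

/-!
# S43 (Ribet's level lowering at an odd prime `q ≠ p`, Frey form): LEVEL-0 seams (helper9, chief)

`s43t_main : s43t_S44_stmt → s43t_Mazur_stmt → s43t_Hard_stmt → (the frozen statement S43)`.

* `s43t_S44_stmt`   : the frozen S44 (on main: `Fermat.Agent.S44.result`) — removes `p` from the level;
* `s43t_FrobScalar P q` : every Frobenius element at `q` acts on `E[p]` as a scalar;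
* `s43t_IsHard P q` : `q ≡ 1 mod p` and `s43t_FrobScalar P q` (the case not covered by Mazur's
  principle);
* `s43t_Mazur_stmt` **[F] Mazur's principle**: `p ∤ N`, `q` NOT hard ⟹ the level can be lowered;
* `s43t_Hard_stmt`  **[HARD] the machine**: `p ∤ N`, `q` hard ⟹ the level can be lowered.
-/

set_option autoImplicit false

namespace Fermat.Agent.S43

open WeierstrassCurve WeierstrassCurve.Affine WeierstrassCurve.Affine.Point
open scoped WeierstrassCurve.Affine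

/-- `ℚ̄` -/
abbrev s43t_Qb : Type := AlgebraicClosure ℚ

/-- `G_ℚ` -/
abbrev s43t_G : Type := s43t_Qb ≃ₐ[ℚ] s43t_Qb

/-- the `G_ℚ`-module `E[p]` of the Frey curve (the carrier used by `GaloisRepIsIrreducible` and
`GaloisRepUnramifiedAt`) -/
abbrev s43t_Tors (P : FreyPackage) : Type :=
  ↥(Submodule.torsionBy ℤ ((P.freyCurve)⁄s43t_Qb).Point (P.p : ℤ))

/-- every Frobenius element at `q` acts on `E[p]` as a scalar -/
def s43t_FrobScalar (P : FreyPackage) (q : ℕ) : Prop :=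
  ∀ A : ValuationSubring s43t_Qb, A.LiesOverPrime q →
    ∀ σ : s43t_G, A.IsFrobeniusAt σ q → ∃ c : ℤ, ∀ x : s43t_Tors P, σ • x = c • x

/-- the hard case: `q ≡ 1 mod p` and `ρ̄(Frob_q)` scalar -/
def s43t_IsHard (P : FreyPackage) (q : ℕ) : Prop :=
  q % P.p = 1 ∧ s43t_FrobScalar P q

/-- the frozen S44 (on main) -/
def s43t_S44_stmt : Prop :=
  ∀ (P : FreyPackage) {N : ℕ}, P.IsConductorLevel N → P.p ∣ N →
    GaloisRepIsIrreducible (K := AlgebraicClosure ℚ) ℚ P.freyCurve P.p →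
    P.ModularRepOfLevel N → ∃ M : ℕ, M ∣ N ∧ ¬ P.p ∣ M ∧ P.ModularRepOfLevel M

/-- **[F] Mazur's principle** (`q ≢ 1 mod p`, or `ρ̄(Frob_q)` not scalar), `p ∤ N` -/
def s43t_Mazur_stmt : Prop :=
  ∀ (P : FreyPackage) (N q : ℕ), P.IsConductorLevel N → q.Prime → q ≠ 2 → q ≠ P.p → q ∣ N →
    ¬ P.p ∣ N →
    GaloisRepIsIrreducible (K := AlgebraicClosure ℚ) ℚ P.freyCurve P.p →
    P.ModularRepOfLevel N → P.GaloisRepUnramifiedAt q → ¬ s43t_IsHard P q →
    ∃ M : ℕ, M ∣ N ∧ ¬ q ∣ M ∧ P.ModularRepOfLevel M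

/-- **[HARD] the machine** (`q ≡ 1 mod p` and `ρ̄(Frob_q)` scalar), `p ∤ N` -/
def s43t_Hard_stmt : Prop :=
  ∀ (P : FreyPackage) (N q : ℕ), P.IsConductorLevel N → q.Prime → q ≠ 2 → q ≠ P.p → q ∣ N →
    ¬ P.p ∣ N →
    GaloisRepIsIrreducible (K := AlgebraicClosure ℚ) ℚ P.freyCurve P.p →
    P.ModularRepOfLevel N → P.GaloisRepUnramifiedAt q → s43t_IsHard P q →
    ∃ M : ℕ, M ∣ N ∧ ¬ q ∣ M ∧ P.ModularRepOfLevel M

/-- the case `p ∤ N` of S43 from [F] and [HARD] -/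
theorem s43t_of_not_dvd (hM : s43t_Mazur_stmt) (hH : s43t_Hard_stmt)
    (P : FreyPackage) {N q : ℕ} (hcond : P.IsConductorLevel N) (hq : q.Prime) (hq2 : q ≠ 2)
    (hqp : q ≠ P.p) (hqN : q ∣ N) (hpN : ¬ P.p ∣ N)
    (hirr : GaloisRepIsIrreducible (K := AlgebraicClosure ℚ) ℚ P.freyCurve P.p)
    (hmod : P.ModularRepOfLevel N) (hunr : P.GaloisRepUnramifiedAt q) :
    ∃ M : ℕ, M ∣ N ∧ ¬ q ∣ M ∧ P.ModularRepOfLevel M := by
  by_cases hhard : s43t_IsHard P q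
  · exact hH P N q hcond hq hq2 hqp hqN hpN hirr hmod hunr hhard
  · exact hM P N q hcond hq hq2 hqp hqN hpN hirr hmod hunr hhard

/-- **S43 from S44, [F] and [HARD].** -/
theorem s43t_main (h44 : s43t_S44_stmt) (hM : s43t_Mazur_stmt) (hH : s43t_Hard_stmt)
    (P : FreyPackage) {N q : ℕ} (hcond : P.IsConductorLevel N) (hq : q.Prime) (hq2 : q ≠ 2)
    (hqp : q ≠ P.p) (hqN : q ∣ N)
    (hirr : GaloisRepIsIrreducible (K := AlgebraicClosure ℚ) ℚ P.freyCurve P.p)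
    (hmod : P.ModularRepOfLevel N) (hunr : P.GaloisRepUnramifiedAt q) :
    ∃ M : ℕ, M ∣ N ∧ ¬ q ∣ M ∧ P.ModularRepOfLevel M := by
  by_cases hpN : P.p ∣ N
  · obtain ⟨M, hMN, hpM, hmodM⟩ := h44 P hcond hpN hirr hmod
    by_cases hqM : q ∣ M
    · have hM0 : 0 < M := Nat.pos_of_dvd_of_pos hMN hcond.pos
      obtain ⟨M', hM'M, hqM', hmodM'⟩ :=
        s43t_of_not_dvd hM hH P (hcond.of_dvd hMN hM0) hq hq2 hqp hqM hpM hirr hmodM hunr
      exact ⟨M', hM'M.trans hMN, hqM', hmodM'⟩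
    · exact ⟨M, hMN, hqM, hmodM⟩
  · exact s43t_of_not_dvd hM hH P hcond hq hq2 hqp hqN hpN hirr hmod hunr

end Fermat.Agent.S43
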