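import Fermat.Agent.S43.Top.Seams
import Fermat.Agent.TW.Top.CoreSeam

/-!
# S43: LEVEL-1 seams of the hard case (helper9, chief)

`s43t_hard_of : s43t_Entry_stmt → twt_Core_stmt → s43t_Exit_stmt → s43t_Hard_stmt`.

* `s43t_Entry_stmt` **[F-in]**: from the Frey package in the hard case to the input of the machine:
  an integral model `W`, the finite set `S = {p} ∪ {bad primes of W}`, the eigensystem
  `θ : 𝕋_S(N) → 𝔽_p`, `θ(T_ℓ) = a_ℓ(W) mod p`, and `ρ̄ = E[p]` as a `ResidualGaloisRep (ZMod p)` with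
  all the hypotheses of `twt_Core_stmt` (in particular `2 ∣ N` and `ρ̄` RAMIFIED at `2`: the pivot);
* `twt_Core_stmt` **[A]–[E]**: the machine (`Fermat/Agent/TW/Top/CoreSeam.lean`);
* `s43t_Exit_stmt` **[F-out]**: an eigensystem mod `p` of level `M` with the eigenvalues
  `a_ℓ(W) mod p` (`ℓ ∉ S`) gives `P.ModularRepOfLevel M` (Deligne–Serre lifting).
-/

set_option autoImplicit false

namespace Fermat.Agent.S43

open WeierstrassCurve WeierstrassCurve.Affine WeierstrassCurve.Affine.Point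
open CuspForm Fermat.Agent.TW

/-- `θ(T_ℓ) = a_ℓ(W) mod p` for all `ℓ ∉ S` -/
def s43t_IsFreyEig (P : FreyPackage) [Fact P.p.Prime] (W : WeierstrassCurve ℤ)
    {k : Type} [Field k] [Algebra (ZMod P.p) k] {M : ℕ} [NeZero M] {S : Finset ℕ}
    (θ : heckeAlgebra M 2 (↑S : Set ℕ) →+* k) : Prop :=
  ∀ (ℓ : ℕ) (hℓ : ℓ.Prime) (hℓM : ¬ ℓ ∣ M) (hℓS : ℓ ∉ (↑S : Set ℕ)),
    θ (heckeAlgebra.T hℓ hℓM hℓS) = algebraMap (ZMod P.p) k (((W.apOfModel ℓ : ℤ) : ZMod P.p))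

/-- `S ∖ {p}` = the bad primes of `W` -/
def s43t_IsBadSet (P : FreyPackage) (W : WeierstrassCurve ℤ) (S : Finset ℕ) : Prop :=
  P.p ∈ S ∧ (∀ ℓ ∈ S, ℓ ≠ P.p → ¬ W.IsGoodPrimeFor ℓ) ∧
    (∀ ℓ : ℕ, ℓ.Prime → ℓ ∉ S → W.IsGoodPrimeFor ℓ)

/-- **[F-in] ENTRY** -/
def s43t_Entry_stmt : Prop :=
  ∀ (P : FreyPackage) [Fact P.p.Prime] (N q : ℕ) [NeZero N], P.IsConductorLevel N → q.Prime →
    q ≠ 2 → q ≠ P.p → q ∣ N → ¬ P.p ∣ N →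
    GaloisRepIsIrreducible (K := AlgebraicClosure ℚ) ℚ P.freyCurve P.p →
    P.ModularRepOfLevel N → P.GaloisRepUnramifiedAt q → s43t_IsHard P q →
    ∃ (W : WeierstrassCurve ℤ) (S : Finset ℕ)
      (θ : heckeAlgebra N 2 (↑S : Set ℕ) →+* ZMod P.p) (ρbar : ResidualGaloisRep (ZMod P.p)),
      W.IsIntegralModelOf P.freyCurve ∧ s43t_IsBadSet P W S ∧
      (∀ ℓ : ℕ, ℓ.Prime → ℓ ∣ N → ℓ ∈ S) ∧ 2 ∣ N ∧
      s43t_IsFreyEig P W θ ∧ twt_Compat θ ρbar ∧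
      ρbar.IsAbsolutelyIrreducible ∧ ¬ ρbar.IsUnramifiedAt 2 ∧
      (∀ ℓ : ℕ, ℓ.Prime → ℓ ∣ N → ℓ ≠ 2 → ρbar.IsUnramifiedAt ℓ) ∧ twt_FrobScalar ρbar q

/-- **[F-out] EXIT** -/
def s43t_Exit_stmt : Prop :=
  ∀ (P : FreyPackage) [Fact P.p.Prime] (M : ℕ) [NeZero M] (W : WeierstrassCurve ℤ) (S : Finset ℕ),
    W.IsIntegralModelOf P.freyCurve → s43t_IsBadSet P W S →
    ∀ (k : Type) [Field k] [Algebra (ZMod P.p) k] (θ : heckeAlgebra M 2 (↑S : Set ℕ) →+* k),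
      s43t_IsFreyEig P W θ → P.ModularRepOfLevel M

/-- **[HARD] from ENTRY, CORE, EXIT.** -/
theorem s43t_hard_of (hE : s43t_Entry_stmt) (hC : twt_Core_stmt) (hX : s43t_Exit_stmt) :
    s43t_Hard_stmt := by
  intro P N q hcond hq hq2 hqp hqN hpN hirr hmod hunr hhard
  haveI : Fact P.p.Prime := ⟨P.pp⟩
  haveI : NeZero N := ⟨hcond.pos.ne'⟩
  have hM0 : 0 < N / q := Nat.div_pos (Nat.le_of_dvd hcond.pos hqN) hq.pos
  haveI : NeZero (N / q) := ⟨hM0.ne'⟩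
  obtain ⟨W, S, θ, ρbar, hW, hS, hNS, h2N, hθW, hcompat, habs, hram2, hunrN, hscal⟩ :=
    hE P N q hcond hq hq2 hqp hqN hpN hirr hmod hunr hhard
  obtain ⟨k', _, _, θ', hθ'⟩ := hC P.p P.hp5 (ZMod P.p) N q hcond.squarefree h2N hpN hq hq2 hqN
    hhard.1 S hS.1 hNS θ ρbar hcompat habs hram2 hunrN hscal
  have hdiv : N / q ∣ N := Nat.div_dvd_of_dvd hqN
  refine ⟨N / q, hdiv, ?_, ?_⟩
  · intro hqM
    obtain ⟨c, hc⟩ := hqM
    apply hcond.sq_not_dvd hq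
    refine ⟨c, ?_⟩
    have h1 : N = q * (N / q) := (Nat.mul_div_cancel' hqN).symm
    rw [h1, hc]; ring
  · refine hX P (N / q) W S hW hS k' θ' ?_
    intro ℓ hℓ hℓM hℓS
    have hℓN : ¬ ℓ ∣ N := fun h => hℓS (by exact_mod_cast hNS ℓ hℓ h)
    rw [hθ' ℓ hℓ hℓN hℓM hℓS, hθW ℓ hℓ hℓN hℓS]
    rfl

end Fermat.Agent.S43
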