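import Fermat.Agent.S43.Top.HardSeams2
import Fermat.Agent.TW.Top.MachineSeam2

/-!
# S43: LEVEL-1 seams of the hard case, VERSION 2 (helper9, chief)

Revision after the referee reports (#4620, #4625).

**(HARD-ALL)** The machine works only when EVERY odd prime of the level is hard.  Hence:

* `s43t_S05_stmt` : the frozen S05 (on main: `Fermat.Agent.S05.result`): `E[p]` is unramified at
  every prime `≠ 2, p`;
* `s43t_HardClean_stmt` : `s43t_Hard_stmt` with the extra hypothesis that every odd prime of `N`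
  is hard;
* `s43t_hard_of_clean : S05 → Mazur → HardClean → Hard` (strong induction on `N`: remove the
  non-hard odd primes by Mazur's principle, one at a time; this puts [F-Maz] on the critical path
  of every instance);
* `s43t_Entry2_stmt` **[F-in] v2**: from the Frey package with all odd primes hard to the input
  of the machine v2 (`twt_Core2_stmt` / `twt_Machine2_stmt`);
* `s43t_ReadOffFrey2_stmt` **[F7] v2** (extra hypothesis `ρ.residual.IsAbsolutelyIrreducible`);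
* `s43t_hardClean_of  : Entry2 → Core2 → Exit → HardClean`;
* `s43t_hardClean_of2 : Entry2 → Machine2 → ReadOffFrey2 → HardClean`;
* `s43t_final  : S44 → S05 → Mazur → Entry2 → Machine2 → ReadOff2 → Exit → (frozen S43)`;
* `s43t_final2 : S44 → S05 → Mazur → Entry2 → Machine2 → ReadOffFrey2 → (frozen S43)`.
-/

set_option autoImplicit false

namespace Fermat.Agent.S43

open WeierstrassCurve WeierstrassCurve.Affine WeierstrassCurve.Affine.Point
open CuspForm Fermat.Agent.TW IsLocalRing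

/-- the frozen S05 (on main): `E[p]` is unramified at every prime `q ≠ 2, p`. -/
def s43t_S05_stmt : Prop :=
  ∀ (P : FreyPackage) {q : ℕ}, q.Prime → q ≠ 2 → q ≠ P.p → P.GaloisRepUnramifiedAt q

/-- every odd prime of `N` is hard. -/
def s43t_AllHard (P : FreyPackage) (N : ℕ) : Prop :=
  ∀ ℓ : ℕ, ℓ.Prime → ℓ ∣ N → ℓ ≠ 2 → s43t_IsHard P ℓ

/-- **[HARD-CLEAN]**: the hard case when ALL the odd primes of the level are hard. -/
def s43t_HardClean_stmt : Prop :=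
  ∀ (P : FreyPackage) (N q : ℕ), P.IsConductorLevel N → q.Prime → q ≠ 2 → q ≠ P.p → q ∣ N →
    ¬ P.p ∣ N →
    GaloisRepIsIrreducible (K := AlgebraicClosure ℚ) ℚ P.freyCurve P.p →
    P.ModularRepOfLevel N → s43t_AllHard P N →
    ∃ M : ℕ, M ∣ N ∧ ¬ q ∣ M ∧ P.ModularRepOfLevel M

/-- **[HARD] from S05, Mazur's principle and [HARD-CLEAN]** (strong induction on the level). -/
theorem s43t_hard_of_clean (h05 : s43t_S05_stmt) (hMz : s43t_Mazur_stmt)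
    (hHC : s43t_HardClean_stmt) : s43t_Hard_stmt := by
  intro P N
  induction N using Nat.strong_induction_on with
  | _ N ih =>
    intro q hcond hq hq2 hqp hqN hpN hirr hmod hunr hhard
    by_cases hall : s43t_AllHard P N
    · exact hHC P N q hcond hq hq2 hqp hqN hpN hirr hmod hall
    · unfold s43t_AllHard at hall
      push_neg at hall
      obtain ⟨ℓ, hℓ, hℓN, hℓ2, hℓhard⟩ := hall
      have hℓp : ℓ ≠ P.p := by
        rintro rfl
        exact hpN hℓN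
      obtain ⟨M, hMN, hℓM, hmodM⟩ :=
        hMz P N ℓ hcond hℓ hℓ2 hℓp hℓN hpN hirr hmod (h05 P hℓ hℓ2 hℓp) hℓhard
      by_cases hqM : q ∣ M
      · have hM0 : 0 < M := Nat.pos_of_dvd_of_pos hMN hcond.pos
        have hMltN : M < N := by
          refine lt_of_le_of_ne (Nat.le_of_dvd hcond.pos hMN) ?_
          rintro rfl
          exact hℓM hℓN
        have hpM : ¬ P.p ∣ M := fun h => hpN (h.trans hMN)
        obtain ⟨M', hM'M, hqM', hmodM'⟩ :=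
          ih M hMltN q (hcond.of_dvd hMN hM0) hq hq2 hqp hqM hpM hirr hmodM hunr hhard
        exact ⟨M', hM'M.trans hMN, hqM', hmodM'⟩
      · exact ⟨M, hMN, hqM, hmodM⟩

/-- **[F-in] ENTRY, version 2** (no prime `q`: a statement about the Frey package and a level `N`
all of whose odd primes are hard). -/
def s43t_Entry2_stmt : Prop :=
  ∀ (P : FreyPackage) [Fact P.p.Prime] (N : ℕ) [NeZero N], P.IsConductorLevel N → ¬ P.p ∣ N →
    GaloisRepIsIrreducible (K := AlgebraicClosure ℚ) ℚ P.freyCurve P.p →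
    P.ModularRepOfLevel N → s43t_AllHard P N →
    ∃ (W : WeierstrassCurve ℤ) (S : Finset ℕ)
      (θ : heckeAlgebra N 2 (↑S : Set ℕ) →+* ZMod P.p) (ρbar : ResidualGaloisRep (ZMod P.p)),
      W.IsIntegralModelOf P.freyCurve ∧ s43t_IsBadSet P W S ∧
      (∀ ℓ : ℕ, ℓ.Prime → ℓ ∣ N → ℓ ∈ S) ∧ 2 ∣ N ∧
      s43t_IsFreyEig P W θ ∧ twt_Compat θ ρbar ∧ twt_NonEis θ ∧
      ρbar.IsAbsolutelyIrreducible ∧ twt_TWHyp ρbar ∧ ¬ ρbar.IsUnramifiedAt 2 ∧
      (∀ ℓ : ℕ, ℓ.Prime → ℓ ≠ 2 → ℓ ≠ P.p → ρbar.IsUnramifiedAt ℓ) ∧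
      twt_AllHard P.p N ρbar

/-- `q ∥ N` (squarefree level): `q ∤ N / q`. -/
theorem s43t_not_dvd_div (P : FreyPackage) {N q : ℕ} (hcond : P.IsConductorLevel N)
    (hq : q.Prime) (hqN : q ∣ N) : ¬ q ∣ N / q := by
  intro hqM
  obtain ⟨c, hc⟩ := hqM
  apply hcond.sq_not_dvd hq
  refine ⟨c, ?_⟩
  have h1 : N = q * (N / q) := (Nat.mul_div_cancel' hqN).symm
  rw [h1, hc]; ring

/-- **[HARD-CLEAN] from ENTRY v2, CORE v2, EXIT.** -/
theorem s43t_hardClean_of (hE : s43t_Entry2_stmt) (hC : twt_Core2_stmt) (hX : s43t_Exit_stmt) :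
    s43t_HardClean_stmt := by
  intro P N q hcond hq hq2 hqp hqN hpN hirr hmod hall
  haveI : Fact P.p.Prime := ⟨P.pp⟩
  haveI : NeZero N := ⟨hcond.pos.ne'⟩
  have hM0 : 0 < N / q := Nat.div_pos (Nat.le_of_dvd hcond.pos hqN) hq.pos
  haveI : NeZero (N / q) := ⟨hM0.ne'⟩
  obtain ⟨W, S, θ, ρbar, hW, hS, hNS, h2N, hθW, hcompat, hnE, habs, hTW, hram2, hunrAll, hhardAll⟩ :=
    hE P N hcond hpN hirr hmod hall
  obtain ⟨k', _, _, θ', hθ'⟩ := hC P.p P.hp5 (ZMod P.p) N q hcond.squarefree h2N hpN hq hq2 hqN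
    S hS.1 hNS θ ρbar hcompat hnE habs hTW hram2 hunrAll hhardAll
  refine ⟨N / q, Nat.div_dvd_of_dvd hqN, s43t_not_dvd_div P hcond hq hqN, ?_⟩
  refine hX P (N / q) W S hW hS k' θ' ?_
  intro ℓ hℓ hℓM hℓS
  have hℓN : ¬ ℓ ∣ N := fun h => hℓS (by exact_mod_cast hNS ℓ hℓ h)
  rw [hθ' ℓ hℓ hℓN hℓM hℓS, hθW ℓ hℓ hℓN hℓS]
  rfl

/-- **[F7] Frey-specific READ-OFF, version 2** -/
def s43t_ReadOffFrey2_stmt : Prop :=
  ∀ (P : FreyPackage) [Fact P.p.Prime] (N q : ℕ) [NeZero N], P.IsConductorLevel N → q.Prime →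
    q ≠ 2 → q ≠ P.p → q ∣ N → ¬ P.p ∣ N →
    GaloisRepIsIrreducible (K := AlgebraicClosure ℚ) ℚ P.freyCurve P.p →
  ∀ (W : WeierstrassCurve ℤ) (S : Finset ℕ), W.IsIntegralModelOf P.freyCurve →
    s43t_IsBadSet P W S → (∀ ℓ : ℕ, ℓ.Prime → ℓ ∣ N → ℓ ∈ S) →
  ∀ (𝒪 : Type) [CommRing 𝒪] [IsDomain 𝒪] [IsDiscreteValuationRing 𝒪]
    [IsAdicComplete (maximalIdeal 𝒪) 𝒪] [Finite (ResidueField 𝒪)] [CharZero 𝒪]
    [Algebra (ZMod P.p) (ResidueField 𝒪)],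
    (P.p : 𝒪) ∈ maximalIdeal 𝒪 →
  ∀ (χ : heckeAlgebra N 2 (↑S : Set ℕ) →+* 𝒪) (ρ : GaloisRepAdic 𝒪),
    (∀ (ℓ : ℕ) (hℓ : ℓ.Prime) (hℓN : ¬ ℓ ∣ N) (hℓS : ℓ ∉ (↑S : Set ℕ)),
      residue 𝒪 (χ (heckeAlgebra.T hℓ hℓN hℓS)) =
        algebraMap (ZMod P.p) (ResidueField 𝒪) (((W.apOfModel ℓ : ℤ) : ZMod P.p))) →
    twt_CompatAdic χ ρ → ρ.residual.IsAbsolutelyIrreducible → ρ.IsUnramifiedAt q →
    P.ModularRepOfLevel (N / q)

/-- **[HARD-CLEAN] from ENTRY v2, MACHINE v2 and the Frey-specific READ-OFF v2.** -/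
theorem s43t_hardClean_of2 (hE : s43t_Entry2_stmt) (hM : twt_Machine2_stmt)
    (hR : s43t_ReadOffFrey2_stmt) : s43t_HardClean_stmt := by
  intro P N q hcond hq hq2 hqp hqN hpN hirr hmod hall
  haveI : Fact P.p.Prime := ⟨P.pp⟩
  haveI : NeZero N := ⟨hcond.pos.ne'⟩
  obtain ⟨W, S, θ, ρbar, hW, hS, hNS, h2N, hθW, hcompat, hnE, habs, hTW, hram2, hunrAll, hhardAll⟩ :=
    hE P N hcond hpN hirr hmod hall
  obtain ⟨𝒪, _, _, _, _, _, _, _, χ, ρ, hp𝒪, hχθ, hχρ, hρabs, hρq⟩ :=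
    hM P.p P.hp5 (ZMod P.p) N q hcond.squarefree h2N hpN hq hq2 hqN S hS.1 hNS θ ρbar
      hcompat hnE habs hTW hram2 hunrAll hhardAll
  refine ⟨N / q, Nat.div_dvd_of_dvd hqN, s43t_not_dvd_div P hcond hq hqN, ?_⟩
  refine hR P N q hcond hq hq2 hqp hqN hpN hirr W S hW hS hNS 𝒪 hp𝒪 χ ρ ?_ hχρ hρabs hρq
  intro ℓ hℓ hℓN hℓS
  rw [hχθ, hθW ℓ hℓ hℓN hℓS]
  rfl

/-- **S43 from S44, S05, Mazur, ENTRY v2, MACHINE v2, READ-OFF v2, EXIT.** -/
theorem s43t_final (h44 : s43t_S44_stmt) (h05 : s43t_S05_stmt) (hMz : s43t_Mazur_stmt)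
    (hE : s43t_Entry2_stmt) (hM : twt_Machine2_stmt) (hR : twt_ReadOff2_stmt)
    (hX : s43t_Exit_stmt)
    (P : FreyPackage) {N q : ℕ} (hcond : P.IsConductorLevel N) (hq : q.Prime) (hq2 : q ≠ 2)
    (hqp : q ≠ P.p) (hqN : q ∣ N)
    (hirr : GaloisRepIsIrreducible (K := AlgebraicClosure ℚ) ℚ P.freyCurve P.p)
    (hmod : P.ModularRepOfLevel N) (hunr : P.GaloisRepUnramifiedAt q) :
    ∃ M : ℕ, M ∣ N ∧ ¬ q ∣ M ∧ P.ModularRepOfLevel M :=
  s43t_main h44 hMz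
    (s43t_hard_of_clean h05 hMz (s43t_hardClean_of hE (twt_core2_of hM hR) hX))
    P hcond hq hq2 hqp hqN hirr hmod hunr

/-- **S43 from S44, S05, Mazur, ENTRY v2, MACHINE v2 and the Frey-specific READ-OFF v2.** -/
theorem s43t_final2 (h44 : s43t_S44_stmt) (h05 : s43t_S05_stmt) (hMz : s43t_Mazur_stmt)
    (hE : s43t_Entry2_stmt) (hM : twt_Machine2_stmt) (hR : s43t_ReadOffFrey2_stmt)
    (P : FreyPackage) {N q : ℕ} (hcond : P.IsConductorLevel N) (hq : q.Prime) (hq2 : q ≠ 2)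
    (hqp : q ≠ P.p) (hqN : q ∣ N)
    (hirr : GaloisRepIsIrreducible (K := AlgebraicClosure ℚ) ℚ P.freyCurve P.p)
    (hmod : P.ModularRepOfLevel N) (hunr : P.GaloisRepUnramifiedAt q) :
    ∃ M : ℕ, M ∣ N ∧ ¬ q ∣ M ∧ P.ModularRepOfLevel M :=
  s43t_main h44 hMz
    (s43t_hard_of_clean h05 hMz (s43t_hardClean_of2 hE hM hR))
    P hcond hq hq2 hqp hqN hirr hmod hunr

end Fermat.Agent.S43
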