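import Fermat.Agent.S43.Top.Final2
import Fermat.Agent.TW.Easy.Asm.Mazur
import Fermat.Agent.TW.Def.PatchLvMain4

/-!
# S43: the frozen statement from the SINGLE remaining Prop of block [E] (helper9, chief)

Blocks [F] (`twf_mazur`, `twf_readoff`; helper1's TW/Easy/Asm/Mazur.lean + ReadOff.lean),
[A] (`twlg_as_A4`), [B], [C] (`twc_pm_main`, `twc_pm_main3`, `twc_pm_main4`; helper21's
TW/Def/PatchLvMain*.lean), [D] are closed on main.  Hence

* `s43t_of_patchLv : twt_PatchLv_stmt → (frozen S43)`;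
* `s43t_of_M2LG4  : twe_M2LG4_stmt → (frozen S43)`   (the weakest [E] target);
* `s43t_of_M2LG3  : twe_M2LG3_stmt → (frozen S43)`;
* `s43t_of_M2LG2  : twe_M2LG2_stmt → (frozen S43)`.
Prefix `s43t_`.
-/

set_option autoImplicit false

namespace Fermat.Agent.S43

open WeierstrassCurve WeierstrassCurve.Affine WeierstrassCurve.Affine.Point
open Fermat.Agent.TW

/-- **S43 from `twt_PatchLv_stmt` alone** (blocks [F-Maz] and [RO] closed). -/
theorem s43t_of_patchLv (hL : twt_PatchLv_stmt)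
    (P : FreyPackage) {N q : ℕ} (hcond : P.IsConductorLevel N) (hq : q.Prime) (hq2 : q ≠ 2)
    (hqp : q ≠ P.p) (hqN : q ∣ N)
    (hirr : GaloisRepIsIrreducible (K := AlgebraicClosure ℚ) ℚ P.freyCurve P.p)
    (hmod : P.ModularRepOfLevel N) (hunr : P.GaloisRepUnramifiedAt q) :
    ∃ M : ℕ, M ∣ N ∧ ¬ q ∣ M ∧ P.ModularRepOfLevel M :=
  s43t_of_three' twf_mazur twf_readoff (twt_patch_of_lvStmt hL)
    P hcond hq hq2 hqp hqN hirr hmod hunr

/-- **S43 from the single remaining Prop of [E], weakest form `twe_M2LG4_stmt`.** -/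
theorem s43t_of_M2LG4 (hE : twe_M2LG4_stmt)
    (P : FreyPackage) {N q : ℕ} (hcond : P.IsConductorLevel N) (hq : q.Prime) (hq2 : q ≠ 2)
    (hqp : q ≠ P.p) (hqN : q ∣ N)
    (hirr : GaloisRepIsIrreducible (K := AlgebraicClosure ℚ) ℚ P.freyCurve P.p)
    (hmod : P.ModularRepOfLevel N) (hunr : P.GaloisRepUnramifiedAt q) :
    ∃ M : ℕ, M ∣ N ∧ ¬ q ∣ M ∧ P.ModularRepOfLevel M :=
  s43t_of_patchLv (twc_pm_main4 hE) P hcond hq hq2 hqp hqN hirr hmod hunr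

/-- **S43 from `twe_M2LG3_stmt`.** -/
theorem s43t_of_M2LG3 (hE : twe_M2LG3_stmt)
    (P : FreyPackage) {N q : ℕ} (hcond : P.IsConductorLevel N) (hq : q.Prime) (hq2 : q ≠ 2)
    (hqp : q ≠ P.p) (hqN : q ∣ N)
    (hirr : GaloisRepIsIrreducible (K := AlgebraicClosure ℚ) ℚ P.freyCurve P.p)
    (hmod : P.ModularRepOfLevel N) (hunr : P.GaloisRepUnramifiedAt q) :
    ∃ M : ℕ, M ∣ N ∧ ¬ q ∣ M ∧ P.ModularRepOfLevel M :=
  s43t_of_M2LG4 (twe_m2lg4_of_m2lg3 hE) P hcond hq hq2 hqp hqN hirr hmod hunr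

/-- **S43 from `twe_M2LG2_stmt`.** -/
theorem s43t_of_M2LG2 (hE : twe_M2LG2_stmt)
    (P : FreyPackage) {N q : ℕ} (hcond : P.IsConductorLevel N) (hq : q.Prime) (hq2 : q ≠ 2)
    (hqp : q ≠ P.p) (hqN : q ∣ N)
    (hirr : GaloisRepIsIrreducible (K := AlgebraicClosure ℚ) ℚ P.freyCurve P.p)
    (hmod : P.ModularRepOfLevel N) (hunr : P.GaloisRepUnramifiedAt q) :
    ∃ M : ℕ, M ∣ N ∧ ¬ q ∣ M ∧ P.ModularRepOfLevel M :=
  s43t_of_M2LG3 (twe_m2lg3_of_m2lg2 hE) P hcond hq hq2 hqp hqN hirr hmod hunr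

end Fermat.Agent.S43
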