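import Fermat.Agent.S43.Top.HardSeams3
import Fermat.Agent.TW.Top.MachineOfEnd
import Fermat.Agent.TW.Easy.Entry2
import Fermat.Agent.TW.Easy.Exit
import Fermat.Agent.S44
import Fermat.Agent.S05

/-!
# S43: the frozen statement from the THREE open seams (helper9, chief)

`s43t_of_three : s43t_Mazur_stmt → twt_ReadOff2_stmt → twt_Patch_stmt → (frozen S43)` and the
variant `s43t_of_three' ` with the Frey-specific read-off `s43t_ReadOffFrey2_stmt`.

Everything else is closed on main: `Fermat.Agent.S44.result`, `Fermat.Agent.S05.result`,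
`twfe_entry2 : s43t_Entry2_stmt` (helper15), `twfx_exit : s43t_Exit_stmt` (helper15),
`twt_machine2_of_patch` (TW/Top/MachineOfEnd.lean), `s43t_final` / `s43t_final2`
(S43/Top/HardSeams3.lean).
-/

set_option autoImplicit false

namespace Fermat.Agent.S43

open WeierstrassCurve WeierstrassCurve.Affine WeierstrassCurve.Affine.Point
open Fermat.Agent.TW

theorem s43t_S44_closed : s43t_S44_stmt :=
  fun P _ h1 h2 h3 h4 => Fermat.Agent.S44.result P h1 h2 h3 h4

theorem s43t_S05_closed : s43t_S05_stmt :=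
  fun P _ hq hq2 hqp => Fermat.Agent.S05.result P hq hq2 hqp

/-- **S43 from [F-Maz], [RO] v2 and [PATCH].** -/
theorem s43t_of_three (hMz : s43t_Mazur_stmt) (hR : twt_ReadOff2_stmt) (hP : twt_Patch_stmt)
    (P : FreyPackage) {N q : ℕ} (hcond : P.IsConductorLevel N) (hq : q.Prime) (hq2 : q ≠ 2)
    (hqp : q ≠ P.p) (hqN : q ∣ N)
    (hirr : GaloisRepIsIrreducible (K := AlgebraicClosure ℚ) ℚ P.freyCurve P.p)
    (hmod : P.ModularRepOfLevel N) (hunr : P.GaloisRepUnramifiedAt q) :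
    ∃ M : ℕ, M ∣ N ∧ ¬ q ∣ M ∧ P.ModularRepOfLevel M :=
  s43t_final s43t_S44_closed s43t_S05_closed hMz twfe_entry2 (twt_machine2_of_patch hP) hR
    twfx_exit P hcond hq hq2 hqp hqN hirr hmod hunr

/-- **S43 from [F-Maz], the Frey-specific [RO] v2 and [PATCH].** -/
theorem s43t_of_three' (hMz : s43t_Mazur_stmt) (hR : s43t_ReadOffFrey2_stmt)
    (hP : twt_Patch_stmt)
    (P : FreyPackage) {N q : ℕ} (hcond : P.IsConductorLevel N) (hq : q.Prime) (hq2 : q ≠ 2)
    (hqp : q ≠ P.p) (hqN : q ∣ N)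
    (hirr : GaloisRepIsIrreducible (K := AlgebraicClosure ℚ) ℚ P.freyCurve P.p)
    (hmod : P.ModularRepOfLevel N) (hunr : P.GaloisRepUnramifiedAt q) :
    ∃ M : ℕ, M ∣ N ∧ ¬ q ∣ M ∧ P.ModularRepOfLevel M :=
  s43t_final2 s43t_S44_closed s43t_S05_closed hMz twfe_entry2 (twt_machine2_of_patch hP) hR
    P hcond hq hq2 hqp hqN hirr hmod hunr

end Fermat.Agent.S43
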