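import Fermat.Agent.S43.Top.Final
import Fermat.Agent.TW.Easy.GeoSeam
import Fermat.Agent.TW.Easy.Asm.CompAll
import Fermat.Agent.TW.Easy.Asm.ResHeckeAll
import Fermat.Agent.TW.Easy.Asm.ROCells
import Fermat.Agent.TW.Top.PatchOfLv

/-!
# S43: the frozen statement from the three remaining CELLS (helper9, chief)

`s43t_of_cells : twf_ToricWAll_stmt → twft_Toric_stmt → twt_PatchLv_stmt → (frozen S43)`.

* (Z8) `twf_ToricWAll_stmt` (TW/Easy/GeoSeam.lean) ⟹ `s43t_Mazur_stmt` by `twf_mazur_of_cells`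
  with `twf_compAll`, `twf_resHeckeAll` (both proved on main);
* (Z7) `twft_Toric_stmt` (TW/Easy/Toric/Stmt.lean) ⟹ `s43t_ReadOffFrey2_stmt` by helper1's
  `twf_readoff_of` (TW/Easy/Asm/ROCells.lean, over helper27's `twfo_readoff`);
* `twt_PatchLv_stmt` (TW/Top/PatchOfLv.lean) ⟹ `twt_Patch_stmt` by helper25's `twt_patch_of_lvStmt`.

Also the two intermediate forms `s43t_mazur_of_cell`, `s43t_readoff_of_cell`, `s43t_patch_of_cell`
and the variant `s43t_of_mazur_cells` which takes `s43t_Mazur_stmt` directly.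
Prefix `s43t_`.
-/

set_option autoImplicit false

namespace Fermat.Agent.S43

open WeierstrassCurve WeierstrassCurve.Affine WeierstrassCurve.Affine.Point
open Fermat.Agent.TW

/-- [F-Maz] from the single open cell (Z8). -/
theorem s43t_mazur_of_cell (hW : twf_ToricWAll_stmt) : s43t_Mazur_stmt :=
  twf_mazur_of_cells twf_compAll twf_resHeckeAll hW

/-- [RO] from the single open cell (Z7). -/
theorem s43t_readoff_of_cell (hT : twft_Toric_stmt) : s43t_ReadOffFrey2_stmt :=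
  twf_readoff_of hT

/-- [PATCH] from the single open cell `twt_PatchLv_stmt`. -/
theorem s43t_patch_of_cell (hL : twt_PatchLv_stmt) : twt_Patch_stmt :=
  twt_patch_of_lvStmt hL

/-- **S43 from `s43t_Mazur_stmt`, (Z7) and `twt_PatchLv_stmt`.** -/
theorem s43t_of_mazur_cells (hMz : s43t_Mazur_stmt) (hT : twft_Toric_stmt)
    (hL : twt_PatchLv_stmt)
    (P : FreyPackage) {N q : ℕ} (hcond : P.IsConductorLevel N) (hq : q.Prime) (hq2 : q ≠ 2)
    (hqp : q ≠ P.p) (hqN : q ∣ N)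
    (hirr : GaloisRepIsIrreducible (K := AlgebraicClosure ℚ) ℚ P.freyCurve P.p)
    (hmod : P.ModularRepOfLevel N) (hunr : P.GaloisRepUnramifiedAt q) :
    ∃ M : ℕ, M ∣ N ∧ ¬ q ∣ M ∧ P.ModularRepOfLevel M :=
  s43t_of_three' hMz (s43t_readoff_of_cell hT) (s43t_patch_of_cell hL)
    P hcond hq hq2 hqp hqN hirr hmod hunr

/-- **S43 from the three remaining cells (Z8), (Z7), `twt_PatchLv_stmt`.** -/
theorem s43t_of_cells (hW : twf_ToricWAll_stmt) (hT : twft_Toric_stmt) (hL : twt_PatchLv_stmt)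
    (P : FreyPackage) {N q : ℕ} (hcond : P.IsConductorLevel N) (hq : q.Prime) (hq2 : q ≠ 2)
    (hqp : q ≠ P.p) (hqN : q ∣ N)
    (hirr : GaloisRepIsIrreducible (K := AlgebraicClosure ℚ) ℚ P.freyCurve P.p)
    (hmod : P.ModularRepOfLevel N) (hunr : P.GaloisRepUnramifiedAt q) :
    ∃ M : ℕ, M ∣ N ∧ ¬ q ∣ M ∧ P.ModularRepOfLevel M :=
  s43t_of_mazur_cells (s43t_mazur_of_cell hW) hT hL P hcond hq hq2 hqp hqN hirr hmod hunr

end Fermat.Agent.S43
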