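import Fermat.Agent.S43.Top.HardSeams
import Fermat.Agent.TW.Top.MachineSeam

/-!
# S43: LEVEL-1/2 seams of the hard case, variant with a FREY-SPECIFIC read-off (helper9, chief)

`s43t_hard_of2 : s43t_Entry_stmt → twt_Machine_stmt → s43t_ReadOffFrey_stmt → s43t_Hard_stmt`.

Same as `s43t_hard_of ∘ twt_core_of`, but the last two steps ([RO] read-off in the Frey-free form
`twt_ReadOff_stmt`, then [F-out] `s43t_Exit_stmt`) are merged into ONE Frey-specific statement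
`s43t_ReadOffFrey_stmt` (= helper1's cell F7 `twf_unram_imp_old`): a characteristic-`0`
eigensystem `χ` of level `N` with `χ(T_ℓ) ≡ a_ℓ(W)`, whose Galois representation is unramified at
`q`, gives `P.ModularRepOfLevel (N / q)`.  Block [F] may prove EITHER this statement OR the pair
(`twt_ReadOff_stmt`, `s43t_Exit_stmt`).
-/

set_option autoImplicit false

namespace Fermat.Agent.S43

open WeierstrassCurve WeierstrassCurve.Affine WeierstrassCurve.Affine.Point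
open CuspForm Fermat.Agent.TW IsLocalRing

/-- **[F7] Frey-specific READ-OFF** -/
def s43t_ReadOffFrey_stmt : Prop :=
  ∀ (P : FreyPackage) [Fact P.p.Prime] (N q : ℕ) [NeZero N], P.IsConductorLevel N → q.Prime →
    q ≠ 2 → q ≠ P.p → q ∣ N → ¬ P.p ∣ N →
    GaloisRepIsIrreducible (K := AlgebraicClosure ℚ) ℚ P.freyCurve P.p →
  ∀ (W : WeierstrassCurve ℤ) (S : Finset ℕ), W.IsIntegralModelOf P.freyCurve →
    s43t_IsBadSet P W S → (∀ ℓ : ℕ, ℓ.Prime → ℓ ∣ N → ℓ ∈ S) →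
  ∀ (𝒪 : Type) [CommRing 𝒪] [IsDomain 𝒪] [IsDiscreteValuationRing 𝒪]
    [IsAdicComplete (maximalIdeal 𝒪) 𝒪] [Finite (ResidueField 𝒪)] [CharZero 𝒪]
    [Algebra (ZMod P.p) (ResidueField 𝒪)],
    (P.p : 𝒪) ∈ maximalIdeal 𝒪 →
  ∀ (χ : heckeAlgebra N 2 (↑S : Set ℕ) →+* 𝒪) (ρ : GaloisRepAdic 𝒪),
    (∀ (ℓ : ℕ) (hℓ : ℓ.Prime) (hℓN : ¬ ℓ ∣ N) (hℓS : ℓ ∉ (↑S : Set ℕ)),
      residue 𝒪 (χ (heckeAlgebra.T hℓ hℓN hℓS)) =
        algebraMap (ZMod P.p) (ResidueField 𝒪) (((W.apOfModel ℓ : ℤ) : ZMod P.p))) →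
    twt_CompatAdic χ ρ → ρ.IsUnramifiedAt q → P.ModularRepOfLevel (N / q)

/-- **[HARD] from ENTRY, MACHINE and the Frey-specific READ-OFF.** -/
theorem s43t_hard_of2 (hE : s43t_Entry_stmt) (hM : twt_Machine_stmt)
    (hR : s43t_ReadOffFrey_stmt) : s43t_Hard_stmt := by
  intro P N q hcond hq hq2 hqp hqN hpN hirr hmod hunr hhard
  haveI : Fact P.p.Prime := ⟨P.pp⟩
  haveI : NeZero N := ⟨hcond.pos.ne'⟩
  obtain ⟨W, S, θ, ρbar, hW, hS, hNS, h2N, hθW, hcompat, habs, hram2, hunrN, hscal⟩ :=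
    hE P N q hcond hq hq2 hqp hqN hpN hirr hmod hunr hhard
  obtain ⟨𝒪, _, _, _, _, _, _, _, χ, ρ, hp𝒪, hχθ, hχρ, hρq⟩ :=
    hM P.p P.hp5 (ZMod P.p) N q hcond.squarefree h2N hpN hq hq2 hqN hhard.1 S hS.1 hNS θ ρbar
      hcompat habs hram2 hunrN hscal
  have hdiv : N / q ∣ N := Nat.div_dvd_of_dvd hqN
  refine ⟨N / q, hdiv, ?_, ?_⟩
  · intro hqM
    obtain ⟨c, hc⟩ := hqM
    apply hcond.sq_not_dvd hq
    refine ⟨c, ?_⟩
    have h1 : N = q * (N / q) := (Nat.mul_div_cancel' hqN).symm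
    rw [h1, hc]; ring
  · refine hR P N q hcond hq hq2 hqp hqN hpN hirr W S hW hS hNS 𝒪 hp𝒪 χ ρ ?_ hχρ hρq
    intro ℓ hℓ hℓN hℓS
    rw [hχθ, hθW ℓ hℓ hℓN hℓS]
    rfl

end Fermat.Agent.S43
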